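/-
T4E step C (helper5), P8 part 1: **the field `hcase` of `T4eCChart` on chart 1 at level `i + 1`**
from helper4's normalised constants `T4eiConstA/B lo m z`, helper1's norm congruences
(`Norm/Cong.lean`), helper6's steps (`Reg/AllAt.lean`) and ALL-OR-ONE at level `i`.  Prefix `t4esf_`.

* `t4esf_const_mem_B`, `t4esf_const_unit`, `t4esfConst : O →+* B` : the constants of `O` in a chart ring;
* `t4esf_congr_const` : `π (a ^ m) = 1 ⟹ a ^ m ≡ 1 (mod q · Ov)`;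
* `t4esf_m_inv_mem` : `m⁻¹ ∈ B` for `m` prime to `q`;
* `t4esf_constsA`, `t4esf_constsB` : the constants of `T4eiConstA/B` as units of `O` (total families);
* **`t4esf_hcase1`** : the field `hcase` on the chart of level `i + 1`.
-/
import Fermat.Agent.Lib.T4E.Local.Tower
import Fermat.Agent.Lib.T4E.Reg.AllAt
import Fermat.Agent.Lib.T4E.Norm.Cong
import Fermat.Agent.Lib.T4E.New.InstC

set_option autoImplicit false
set_option linter.unusedSectionVars false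
set_option linter.unusedVariables false
set_option linter.style.haveILetI false
set_option synthInstance.maxHeartbeats 400000

open HahnSeries ModularCurve Fermat.Agent.T1 Fermat.Agent.T2

noncomputable section

namespace Fermat.Agent.T4

section Gen

variable {L : Type} [Field L] [Algebra ℚ L] {O : ValuationSubring L} {k : Type} [Field k]
  {π : ↥O →+* k} [IsDiscreteValuationRing ↥O] {hπ : Function.Surjective π} [IsAlgClosed k]
  {N'' q : ℕ} [NeZero N''] [hq : Fact q.Prime] [CharP k q]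

/-! ### Constants in a chart ring -/

section One

variable {i : ℕ} (Y : T4eLayer O π hπ N'' q i) {y : ↥(TaF L (t4eLev N'' q i))}
  (P : T4Pres ↥(TaF L (t4eLev N'' q i))) (hvals : P.vals = t4vpHor L y ∪ Y.ver)

include hvals in
/-- the constants of `O` lie in the chart ring -/
theorem t4esf_const_mem_B (c : ↥O) : algebraMap L ↥(TaF L (t4eLev N'' q i)) (c : L) ∈ P.B := by
  rw [P.mem_iff]
  intro V hV
  rw [hvals] at hV
  rcases hV with hV | ⟨w, hw, rfl⟩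
  · exact t4vp_algebraMap_mem_hor hV _
  · exact Y.const_mem w hw c

include hvals in
/-- a unit of `O` is a unit at every valuation ring of the chart -/
theorem t4esf_const_unit {c : L} (hc : c ∈ O) (hci : c⁻¹ ∈ O) (hc0 : c ≠ 0) :
    ∀ V ∈ P.vals, V.valuation (algebraMap L ↥(TaF L (t4eLev N'' q i)) c) = 1 := by
  intro V hV
  have h1 : algebraMap L ↥(TaF L (t4eLev N'' q i)) c ∈ V :=
    P.B_le hV (t4esf_const_mem_B Y P hvals ⟨c, hc⟩)
  have h2 : (algebraMap L ↥(TaF L (t4eLev N'' q i)) c)⁻¹ ∈ V := by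
    rw [← map_inv₀]
    exact P.B_le hV (t4esf_const_mem_B Y P hvals ⟨c⁻¹, hci⟩)
  exact (t4ei_val_eq_one_iff V ((map_ne_zero _).mpr hc0)).mpr ⟨h1, h2⟩

/-- the constants, as a ring homomorphism `O →+* B` -/
def t4esfConst : ↥O →+* ↥P.B :=
  ((algebraMap L ↥(TaF L (t4eLev N'' q i))).comp O.subtype).codRestrict P.B
    (fun c => t4esf_const_mem_B Y P hvals c)

theorem coe_t4esfConst (c : ↥O) :
    ((t4esfConst Y P hvals c : ↥P.B) : ↥(TaF L (t4eLev N'' q i))) =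
      algebraMap L ↥(TaF L (t4eLev N'' q i)) (c : L) := rfl

/-- the value in `F` of the image of a unit of `O` in `B^×` -/
theorem coe_t4esfConst_units (a : (↥O)ˣ) :
    (((Units.map (t4esfConst Y P hvals : ↥O →* ↥P.B) a : (↥P.B)ˣ) : ↥P.B) :
      ↥(TaF L (t4eLev N'' q i))) = algebraMap L ↥(TaF L (t4eLev N'' q i)) ((a : ↥O) : L) := rfl

include hπ in
/-- an element of `O` with nonzero residue is a unit -/
theorem t4esf_isUnit_of_pi_ne (hqO : Irreducible ((q : ℕ) : ↥O)) {c : ↥O} (hc : π c ≠ 0) :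
    IsUnit c := by
  by_contra hnu
  have hmem : c ∈ IsLocalRing.maximalIdeal ↥O := (IsLocalRing.mem_maximalIdeal c).mpr hnu
  rw [hqO.maximalIdeal_eq, Ideal.mem_span_singleton] at hmem
  exact hc ((ta_pi_eq_zero_iff hπ hqO c).mpr hmem)

include hvals in
/-- `π (a ^ m) = 1 ⟹ a ^ m ≡ 1` modulo `q · Ov` -/
theorem t4esf_congr_const (hqO : Irreducible ((q : ℕ) : ↥O)) {m : ℕ} {a : ↥O}
    (ha : π (a ^ m) = 1) :
    P.CongrOv ((q : ℕ) : ↥(TaF L (t4eLev N'' q i)))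
      (algebraMap L ↥(TaF L (t4eLev N'' q i)) (a : L) ^ m) 1 := by
  have h0 : π (a ^ m - 1) = 0 := by rw [map_sub, ha, map_one, sub_self]
  obtain ⟨o, ho⟩ := (ta_pi_eq_zero_iff hπ hqO _).mp h0
  refine ⟨algebraMap L ↥(TaF L (t4eLev N'' q i)) (o : L),
    fun V hV => P.B_le hV.1 (t4esf_const_mem_B Y P hvals o), ?_⟩
  have h1 : ((a : L)) ^ m - 1 = ((q : ℕ) : L) * (o : L) := by
    have := congrArg (fun x : ↥O => (x : L)) ho
    simpa using this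
  rw [← map_pow, ← map_one (algebraMap L ↥(TaF L (t4eLev N'' q i))), ← map_sub, h1, map_mul,
    map_natCast]

include hvals in
/-- `m⁻¹` lies in the chart ring, `m` prime to `q` -/
theorem t4esf_m_inv_mem (hqO : Irreducible ((q : ℕ) : ↥O)) {m : ℕ} (hqm : Nat.Coprime m q) :
    ((m : ℕ) : ↥(TaF L (t4eLev N'' q i)))⁻¹ ∈ P.B := by
  have hm : π ((m : ℕ) : ↥O) ≠ 0 := by
    rw [map_natCast]
    intro h0
    have hdvd := (CharP.cast_eq_zero_iff k q m).mp h0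
    have h1 : q ∣ Nat.gcd m q := Nat.dvd_gcd hdvd dvd_rfl
    rw [hqm] at h1
    exact hq.out.one_lt.ne' (Nat.dvd_one.mp h1)
  obtain ⟨u, hu⟩ := t4esf_isUnit_of_pi_ne (hπ := hπ) hqO hm
  have h1 : (((m : ℕ) : ↥O) : L) * (((u⁻¹ : (↥O)ˣ) : ↥O) : L) = 1 := by
    rw [← hu]
    exact_mod_cast congrArg (fun x : ↥O => (x : L)) u.mul_inv
  have h2 := t4esf_const_mem_B Y P hvals ((u⁻¹ : (↥O)ˣ) : ↥O)
  have e : algebraMap L ↥(TaF L (t4eLev N'' q i)) ((((u⁻¹ : (↥O)ˣ) : ↥O)) : L) =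
      ((m : ℕ) : ↥(TaF L (t4eLev N'' q i)))⁻¹ := by
    rw [← inv_eq_of_mul_eq_one_right h1, map_inv₀]
    congr 1
    rw [show ((((m : ℕ) : ↥O)) : L) = ((m : ℕ) : L) from by push_cast; rfl, map_natCast]
  rw [← e]
  exact h2

end One

/-! ### The normalised constants as units of `O` -/

section Consts

variable {i : ℕ} {lo : T4eLayer O π hπ N'' q i} {m : ℕ}
  {z : ↥(TaF L (t4eLev N'' q (i + 1)))}

include hπ in
/-- total family of units of `O` from a family with `π (a w ^ m) = 1` for `w ≤ i` -/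
theorem t4esf_units_of (hqO : Irreducible ((q : ℕ) : ↥O)) (hm : m ≠ 0) (a : ℕ → ↥O)
    (ha : ∀ w, w ≤ i → π (a w ^ m) = 1) :
    ∃ a' : ℕ → (↥O)ˣ, (∀ w, w ≤ i → ((a' w : (↥O)ˣ) : ↥O) = a w) ∧
      ∀ w, π (((a' w : (↥O)ˣ) : ↥O) ^ m) = 1 := by
  classical
  have hu : ∀ w, w ≤ i → IsUnit (a w) := by
    intro w hw
    refine t4esf_isUnit_of_pi_ne (hπ := hπ) hqO ?_
    intro h0
    have h1 := ha w hw
    rw [map_pow, h0, zero_pow hm] at h1
    exact zero_ne_one h1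
  refine ⟨fun w => if hw : w ≤ i then (hu w hw).unit else 1, ?_, ?_⟩
  · intro w hw
    simp only [dif_pos hw]
    exact (hu w hw).unit_spec
  · intro w
    by_cases hw : w ≤ i
    · simp only [dif_pos hw]
      rw [(hu w hw).unit_spec]
      exact ha w hw
    · simp only [dif_neg hw]
      rw [Units.val_one, one_pow, map_one]

/-- the normalised constants of the `α`-relation, as units of `O` -/
theorem t4esf_constsA (hqO : Irreducible ((q : ℕ) : ↥O)) (hm : m ≠ 0)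
    (hC : T4eiConstA lo m z) :
    ∃ (c : L) (f : ↥(TaF L (t4eLev N'' q i))) (a : ℕ → (↥O)ˣ), c ∈ O ∧ c⁻¹ ∈ O ∧ c ≠ 0 ∧
      t4nNormA L (t4eLev N'' q i) q z = algebraMap L ↥(TaF L (t4eLev N'' q i)) c * f ^ m ∧
      (∀ w, w ≤ i → (lo.V w).valuation
        (f - algebraMap L ↥(TaF L (t4eLev N'' q i)) (((a w : (↥O)ˣ) : ↥O) : L)) < 1) ∧
      ∀ w, π (((a w : (↥O)ˣ) : ↥O) ^ m) = 1 := by
  obtain ⟨c, f, a, hc, hci, hπc, -, hN, -, hcong, hπa, -⟩ := hC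
  obtain ⟨a', ha', hπa'⟩ := t4esf_units_of (hπ := hπ) hqO hm a hπa
  refine ⟨c, f, a', hc, hci, ?_, hN, ?_, hπa'⟩
  · rintro rfl
    have : (⟨0, hc⟩ : ↥O) = 0 := rfl
    rw [this, map_zero] at hπc
    exact zero_ne_one hπc
  · intro w hw
    rw [ha' w hw]
    exact hcong w hw

/-- the normalised constants of the `β`-relation, as units of `O` -/
theorem t4esf_constsB (hqO : Irreducible ((q : ℕ) : ↥O)) (hm : m ≠ 0)
    (hC : T4eiConstB lo m z) :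
    ∃ (c : L) (f : ↥(TaF L (t4eLev N'' q i))) (b : ℕ → (↥O)ˣ), c ∈ O ∧ c⁻¹ ∈ O ∧ c ≠ 0 ∧
      t4nNormB L (t4eLev N'' q i) q z = algebraMap L ↥(TaF L (t4eLev N'' q i)) c * f ^ m ∧
      (∀ w, w ≤ i → (lo.V w).valuation
        (f - algebraMap L ↥(TaF L (t4eLev N'' q i)) (((b w : (↥O)ˣ) : ↥O) : L)) < 1) ∧
      ∀ w, π (((b w : (↥O)ˣ) : ↥O) ^ m) = 1 := by
  obtain ⟨c, f, a, hc, hci, hπc, -, hN, -, hcong, hπa, -⟩ := hC
  obtain ⟨a', ha', hπa'⟩ := t4esf_units_of (hπ := hπ) hqO hm a hπa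
  refine ⟨c, f, a', hc, hci, ?_, hN, ?_, hπa'⟩
  · rintro rfl
    have : (⟨0, hc⟩ : ↥O) = 0 := rfl
    rw [this, map_zero] at hπc
    exact zero_ne_one hπc
  · intro w hw
    rw [ha' w hw]
    exact hcong w hw

end Consts

/-! ### The field `hcase` on chart 1 -/

section Two

variable {i : ℕ} {lo : T4eLayer O π hπ N'' q i} {up : T4eLayer O π hπ N'' q (i + 1)}
  {Pm : ∀ m : ℕ, T4Pres ↥(TaF L (t4eLev N'' q m))}

/-- **the field `hcase` of `T4eCChart` on the chart of level `i + 1`** (`i ≥ 1`), constants = images of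
units `a j`, `b j` of `O` -/
theorem t4esf_hcase1 (hl : T4eLink lo up) (hn : T4eiNorm lo up) (hi : 1 ≤ i) (S : T4erStep Pm i)
    {y1 : ↥(TaF L (t4eLev N'' q i))} (hvals1 : (Pm i).vals = t4vpHor L y1 ∪ lo.ver)
    {y : ↥(TaF L (t4eLev N'' q (i + 1)))} (hvals : (Pm (i + 1)).vals = t4vpHor L y ∪ up.ver)
    (hqB1 : ((q : ℕ) : ↥(TaF L (t4eLev N'' q i))) ∈ (Pm i).B)
    (hqB : ((q : ℕ) : ↥(TaF L (t4eLev N'' q (i + 1)))) ∈ (Pm (i + 1)).B)
    (H1 : T4eAllAt (Pm i) i lo.V)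
    (hpiA : ∀ x ∈ (Pm (i + 1)).B, ∃ a ∈ (Pm i).B,
      (up.V 0).valuation (x ^ q - t4erAl L N'' q i a) < 1)
    (hpiB : ∀ x ∈ (Pm (i + 1)).B, ∃ a ∈ (Pm i).B,
      (up.V (i + 1)).valuation (x ^ q - t4erBe L N'' q i a) < 1)
    (hIDtop : ∀ b ∈ (Pm (i + 1)).B, ∃ b' ∈ (Pm i).B,
      (up.V (i + 1)).valuation (b - t4erAl L N'' q i b') < 1)
    (hIDsub : ∀ b ∈ (Pm (i + 1)).B, ∃ b' ∈ (Pm i).B,
      (up.V i).valuation (b - t4erAl L N'' q i b') < 1)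
    (hIDbot : ∀ b ∈ (Pm (i + 1)).B, ∃ b' ∈ (Pm i).B,
      (up.V 0).valuation (b - t4erBe L N'' q i b') < 1)
    (hIDone : ∀ b ∈ (Pm (i + 1)).B, ∃ b' ∈ (Pm i).B,
      (up.V 1).valuation (b - t4erBe L N'' q i b') < 1)
    {m : ℕ} (hm : m ≠ 0) {z : ↥(TaF L (t4eLev N'' q (i + 1)))}
    -- the `α`-constants
    {cA : L} {fA : ↥(TaF L (t4eLev N'' q i))} (a : ℕ → (↥O)ˣ)
    (hcA : cA ∈ O) (hcAi : cA⁻¹ ∈ O) (hcA0 : cA ≠ 0)
    (hNA : t4nNormA L (t4eLev N'' q i) q z =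
      algebraMap L ↥(TaF L (t4eLev N'' q i)) cA * fA ^ m)
    (hfA : ∀ w, w ≤ i → (lo.V w).valuation
      (fA - algebraMap L ↥(TaF L (t4eLev N'' q i)) (((a w : (↥O)ˣ) : ↥O) : L)) < 1)
    -- the `β`-constants
    {cB : L} {fB : ↥(TaF L (t4eLev N'' q i))} (b : ℕ → (↥O)ˣ)
    (hcB : cB ∈ O) (hcBi : cB⁻¹ ∈ O) (hcB0 : cB ≠ 0)
    (hNB : t4nNormB L (t4eLev N'' q i) q z =
      algebraMap L ↥(TaF L (t4eLev N'' q i)) cB * fB ^ m)
    (hfB : ∀ w, w ≤ i → (lo.V w).valuation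
      (fB - algebraMap L ↥(TaF L (t4eLev N'' q i)) (((b w : (↥O)ˣ) : ↥O) : L)) < 1)
    -- the constants in the chart ring of level `i + 1`
    (A B : ℕ → (↥(Pm (i + 1)).B)ˣ)
    (hA : ∀ j, (((A j : (↥(Pm (i + 1)).B)ˣ) : ↥(Pm (i + 1)).B) : ↥(TaF L (t4eLev N'' q (i + 1)))) =
      algebraMap L ↥(TaF L (t4eLev N'' q (i + 1))) (((a j : (↥O)ˣ) : ↥O) : L))
    (hB : ∀ j, (((B j : (↥(Pm (i + 1)).B)ˣ) : ↥(Pm (i + 1)).B) : ↥(TaF L (t4eLev N'' q (i + 1)))) =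
      algebraMap L ↥(TaF L (t4eLev N'' q (i + 1))) (((b j : (↥O)ˣ) : ↥O) : L)) :
    ∀ 𝔫 : Ideal (Pm (i + 1)).B, 𝔫.IsMaximal →
      (⟨((q : ℕ) : ↥(TaF L (t4eLev N'' q (i + 1)))), hqB⟩ : (Pm (i + 1)).B) ∈ 𝔫 →
      ∀ s : ↥(TaF L (t4eLev N'' q (i + 1))),
      (∀ W ∈ (Pm (i + 1)).through 𝔫, W.valuation (s ^ m * z) = 1) →
      (∀ W ∈ (Pm (i + 1)).through 𝔫,
          W ∈ (Pm (i + 1)).vert ((q : ℕ) : ↥(TaF L (t4eLev N'' q (i + 1)))) →
        ∀ W' ∈ (Pm (i + 1)).through 𝔫,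
          W' ∈ (Pm (i + 1)).vert ((q : ℕ) : ↥(TaF L (t4eLev N'' q (i + 1)))) → W = W') ∨
      ((∀ W ∈ (Pm (i + 1)).through 𝔫,
          W ∈ (Pm (i + 1)).vert ((q : ℕ) : ↥(TaF L (t4eLev N'' q (i + 1)))) →
          ∃ w, w ≤ i + 1 ∧ W = up.V w) ∧
        (∀ w, w ≤ i + 1 → up.V w ∈ (Pm (i + 1)).through 𝔫 ∧
          up.V w ∈ (Pm (i + 1)).vert ((q : ℕ) : ↥(TaF L (t4eLev N'' q (i + 1))))) ∧
        ∀ κ : ℕ → (Pm (i + 1)).B ⧸ 𝔫,
          (∀ w, w ≤ i + 1 → (Pm (i + 1)).BranchVal 𝔫 (up.V w) s (κ w)) →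
          (∀ w, w ≤ i + 1 → κ w ≠ 0) →
          (∀ j, j + 2 ≤ i + 1 → κ j ^ q * Ideal.Quotient.mk 𝔫 (A j : (Pm (i + 1)).B) =
            κ (i + 1) * κ (i + 1 - 1) ^ (q - 1) *
              Ideal.Quotient.mk 𝔫 (A (i + 1 - 1) : (Pm (i + 1)).B)) ∧
          (∀ j, 1 ≤ j → j + 1 ≤ i + 1 →
            κ (j + 1) ^ q * Ideal.Quotient.mk 𝔫 (B j : (Pm (i + 1)).B) =
            κ 0 * κ 1 ^ (q - 1) * Ideal.Quotient.mk 𝔫 (B 0 : (Pm (i + 1)).B))) :=
  t4e_hcase_of_tower (t4erAl L N'' q i) (t4erBe L N'' q i) hi (t4er_lab lo hvals1 hqB1)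
    (t4er_lab up hvals hqB) (t4er_stepA hl S) (t4er_stepB hl S) H1 (NeZero.ne q) (NeZero.ne q)
    hpiA hpiB hm
    hNA (t4esf_const_unit lo (Pm i) hvals1 hcA hcAi hcA0)
    (fun y a a' ha ha' hy hy' hya hya' =>
      t4enc_hsplit_alpha hn.toA hl hi y a a' ha ha' hy hy' hya hya')
    hIDtop hIDsub
    (fun j hj y hy => t4enc_hfrob_alpha hn.toA hl hj y hy)
    (fun j => ⟨algebraMap L ↥(TaF L (t4eLev N'' q i)) (((a j : (↥O)ˣ) : ↥O) : L),
      t4esf_const_mem_B lo (Pm i) hvals1 (a j : ↥O)⟩) A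
    (fun j _ => (hA j).trans (AlgHom.commutes (heckeAlphaBar L (t4eLev N'' q i) q) _).symm)
    hfA
    hNB (t4esf_const_unit lo (Pm i) hvals1 hcB hcBi hcB0)
    (fun y a a' ha ha' hy hy' hya hya' =>
      t4enc_hsplit_beta hn hl hi y a a' ha ha' hy hy' hya hya')
    hIDbot hIDone
    (fun j hj1 hj y hy => t4enc_hfrob_beta hn hl (by omega) (by omega) y hy)
    (fun j => ⟨algebraMap L ↥(TaF L (t4eLev N'' q i)) (((b j : (↥O)ˣ) : ↥O) : L),
      t4esf_const_mem_B lo (Pm i) hvals1 (b j : ↥O)⟩) B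
    (fun j _ => (hB j).trans (AlgHom.commutes (heckeBetaBar L (t4eLev N'' q i) q) _).symm)
    hfB

end Two

end Gen

end Fermat.Agent.T4
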