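/-
T4E step C (helper5), P8 part 2: **the chart-1 `T4eCChart` at the inertia level**, on helper6's tower
`t4erfPm 𝔓 N'' h hQ` of chart presentations (`Q = p * p`), level `k + 2`.  Prefix `t4esf_`.

Inputs: helper2's `Over` steps `hstep`, the norm package `hn` of the layers `k + 1`, `k + 2`, helper4's
normalised constants (as units of `O`, `Case.lean`).
-/
import Fermat.Agent.Lib.T4E.StepC.Case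
import Fermat.Agent.Lib.T4E.Reg.Chart1Lift
import Fermat.Agent.Lib.T4E.Chart.Noeth
import Fermat.Agent.Lib.T4.Inst.PresRoot

set_option autoImplicit false
set_option linter.unusedSectionVars false
set_option linter.unusedVariables false
set_option linter.style.haveILetI false
set_option synthInstance.maxHeartbeats 400000

namespace Fermat.Agent.T4

open Fermat.Agent.S24Lib Fermat.Agent.T1 Fermat.Agent.T1.KMod Fermat.Agent.T2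
open ModularCurve HahnSeries Fermat.Agent.TW Fermat.Agent.S05Lib AlgebraicCurve

local notation "Qb" => AlgebraicClosure ℚ

noncomputable section

section Fix

attribute [local instance] t2i_dvr t2i_isAlgClosed t2i_charP t2i_fact

variable (𝔓 : FFPlace) (N'' : ℕ) [NeZero N''] (h : ¬ 𝔓.p ∣ N'')

/-- `2 ≤ p * p` -/
theorem t4esf_two_le_pp : 2 ≤ 𝔓.p * 𝔓.p := by
  have h2 := 𝔓.hp.two_le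
  nlinarith

variable (h49 : 4 ∣ N'' ∨ 9 ∣ N'')
  (hstep : ∀ m, 1 ≤ m → T4erStep (t4erfPm 𝔓 N'' h (t4esf_two_le_pp 𝔓)) m)

/-- the vertical valuation rings of a chart presentation of the layer, for `q` as a natural number
cast -/
theorem t4esf_vert {j : ℕ} (hj : 1 ≤ j)
    {P : T4Pres ↥(TaF ↥(tbFix 𝔓 (⊤ : Subgroup 𝔓.I)) (t4eLev N'' 𝔓.p j))}
    {y : ↥(TaF ↥(tbFix 𝔓 (⊤ : Subgroup 𝔓.I)) (t4eLev N'' 𝔓.p j))}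
    (hvals : P.vals = t4vpHor ↥(tbFix 𝔓 (⊤ : Subgroup 𝔓.I)) y ∪ (t4efLayer 𝔓 N'' h j hj).ver) :
    P.vert ((𝔓.p : ℕ) : ↥(TaF ↥(tbFix 𝔓 (⊤ : Subgroup 𝔓.I)) (t4eLev N'' 𝔓.p j))) =
      (t4efLayer 𝔓 N'' h j hj).ver := by
  have h1 := t4ecr_vert (t4efLayer 𝔓 N'' h j hj) P hvals
  rw [map_natCast] at h1
  exact h1

include h49 hstep in
/-- **the chart-1 `T4eCChart` at level `k + 2`** -/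
theorem t4esf_cchart1 (k : ℕ) (hk : 1 ≤ k)
    (hn : T4eiNorm (t4efLayer 𝔓 N'' h (k + 1) (by omega)) (t4efLayer 𝔓 N'' h (k + 1 + 1) (by omega)))
    {m : ℕ} (hm : m.Coprime 𝔓.p) (hm0 : m ≠ 0)
    {z : ↥(TaF ↥(tbFix 𝔓 (⊤ : Subgroup 𝔓.I)) (t4eLev N'' 𝔓.p (k + 1 + 1)))} (hz0 : z ≠ 0)
    (hdiv : ∀ v : Place ↥(tbFix 𝔓 (⊤ : Subgroup 𝔓.I))
      ↥(TaF ↥(tbFix 𝔓 (⊤ : Subgroup 𝔓.I)) (t4eLev N'' 𝔓.p (k + 1 + 1))), (m : ℤ) ∣ v.ord z)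
    -- the `α`-constants
    {cA : ↥(tbFix 𝔓 (⊤ : Subgroup 𝔓.I))}
    {fA : ↥(TaF ↥(tbFix 𝔓 (⊤ : Subgroup 𝔓.I)) (t4eLev N'' 𝔓.p (k + 1)))}
    (a : ℕ → (↥(tbFixO 𝔓 (⊤ : Subgroup 𝔓.I)))ˣ)
    (hcA : cA ∈ tbFixO 𝔓 (⊤ : Subgroup 𝔓.I)) (hcAi : cA⁻¹ ∈ tbFixO 𝔓 (⊤ : Subgroup 𝔓.I))
    (hcA0 : cA ≠ 0)
    (hNA : t4nNormA ↥(tbFix 𝔓 (⊤ : Subgroup 𝔓.I)) (t4eLev N'' 𝔓.p (k + 1)) 𝔓.p z =
      algebraMap ↥(tbFix 𝔓 (⊤ : Subgroup 𝔓.I))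
        ↥(TaF ↥(tbFix 𝔓 (⊤ : Subgroup 𝔓.I)) (t4eLev N'' 𝔓.p (k + 1))) cA * fA ^ m)
    (hfA : ∀ w, w ≤ k + 1 → ((t4efLayer 𝔓 N'' h (k + 1) (by omega)).V w).valuation
      (fA - algebraMap ↥(tbFix 𝔓 (⊤ : Subgroup 𝔓.I))
        ↥(TaF ↥(tbFix 𝔓 (⊤ : Subgroup 𝔓.I)) (t4eLev N'' 𝔓.p (k + 1)))
        (((a w : (↥(tbFixO 𝔓 (⊤ : Subgroup 𝔓.I)))ˣ) : ↥(tbFixO 𝔓 (⊤ : Subgroup 𝔓.I))) :
          ↥(tbFix 𝔓 (⊤ : Subgroup 𝔓.I)))) < 1)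
    -- the `β`-constants
    {cB : ↥(tbFix 𝔓 (⊤ : Subgroup 𝔓.I))}
    {fB : ↥(TaF ↥(tbFix 𝔓 (⊤ : Subgroup 𝔓.I)) (t4eLev N'' 𝔓.p (k + 1)))}
    (b : ℕ → (↥(tbFixO 𝔓 (⊤ : Subgroup 𝔓.I)))ˣ)
    (hcB : cB ∈ tbFixO 𝔓 (⊤ : Subgroup 𝔓.I)) (hcBi : cB⁻¹ ∈ tbFixO 𝔓 (⊤ : Subgroup 𝔓.I))
    (hcB0 : cB ≠ 0)
    (hNB : t4nNormB ↥(tbFix 𝔓 (⊤ : Subgroup 𝔓.I)) (t4eLev N'' 𝔓.p (k + 1)) 𝔓.p z =
      algebraMap ↥(tbFix 𝔓 (⊤ : Subgroup 𝔓.I))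
        ↥(TaF ↥(tbFix 𝔓 (⊤ : Subgroup 𝔓.I)) (t4eLev N'' 𝔓.p (k + 1))) cB * fB ^ m)
    (hfB : ∀ w, w ≤ k + 1 → ((t4efLayer 𝔓 N'' h (k + 1) (by omega)).V w).valuation
      (fB - algebraMap ↥(tbFix 𝔓 (⊤ : Subgroup 𝔓.I))
        ↥(TaF ↥(tbFix 𝔓 (⊤ : Subgroup 𝔓.I)) (t4eLev N'' 𝔓.p (k + 1)))
        (((b w : (↥(tbFixO 𝔓 (⊤ : Subgroup 𝔓.I)))ˣ) : ↥(tbFixO 𝔓 (⊤ : Subgroup 𝔓.I))) :
          ↥(tbFix 𝔓 (⊤ : Subgroup 𝔓.I)))) < 1)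
    -- the constants in the chart ring, the correcting element
    (A B : ℕ → (↥(t4erfPm 𝔓 N'' h (t4esf_two_le_pp 𝔓) (k + 1 + 1)).B)ˣ)
    (hA : ∀ j, (((A j : (↥(t4erfPm 𝔓 N'' h (t4esf_two_le_pp 𝔓) (k + 1 + 1)).B)ˣ) :
        ↥(t4erfPm 𝔓 N'' h (t4esf_two_le_pp 𝔓) (k + 1 + 1)).B) :
        ↥(TaF ↥(tbFix 𝔓 (⊤ : Subgroup 𝔓.I)) (t4eLev N'' 𝔓.p (k + 1 + 1)))) =
      algebraMap ↥(tbFix 𝔓 (⊤ : Subgroup 𝔓.I))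
        ↥(TaF ↥(tbFix 𝔓 (⊤ : Subgroup 𝔓.I)) (t4eLev N'' 𝔓.p (k + 1 + 1)))
        (((a j : (↥(tbFixO 𝔓 (⊤ : Subgroup 𝔓.I)))ˣ) : ↥(tbFixO 𝔓 (⊤ : Subgroup 𝔓.I))) :
          ↥(tbFix 𝔓 (⊤ : Subgroup 𝔓.I))))
    (hB : ∀ j, (((B j : (↥(t4erfPm 𝔓 N'' h (t4esf_two_le_pp 𝔓) (k + 1 + 1)).B)ˣ) :
        ↥(t4erfPm 𝔓 N'' h (t4esf_two_le_pp 𝔓) (k + 1 + 1)).B) :
        ↥(TaF ↥(tbFix 𝔓 (⊤ : Subgroup 𝔓.I)) (t4eLev N'' 𝔓.p (k + 1 + 1)))) =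
      algebraMap ↥(tbFix 𝔓 (⊤ : Subgroup 𝔓.I))
        ↥(TaF ↥(tbFix 𝔓 (⊤ : Subgroup 𝔓.I)) (t4eLev N'' 𝔓.p (k + 1 + 1)))
        (((b j : (↥(tbFixO 𝔓 (⊤ : Subgroup 𝔓.I)))ˣ) : ↥(tbFixO 𝔓 (⊤ : Subgroup 𝔓.I))) :
          ↥(tbFix 𝔓 (⊤ : Subgroup 𝔓.I))))
    {hh : ↥(TaF ↥(tbFix 𝔓 (⊤ : Subgroup 𝔓.I)) (t4eLev N'' 𝔓.p (k + 1 + 1)))}
    (hhh : ∀ V ∈ (t4erfPm 𝔓 N'' h (t4esf_two_le_pp 𝔓) (k + 1 + 1)).vert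
        ((𝔓.p : ℕ) : ↥(TaF ↥(tbFix 𝔓 (⊤ : Subgroup 𝔓.I)) (t4eLev N'' 𝔓.p (k + 1 + 1)))),
      V.valuation (hh - ((t4erfPm 𝔓 N'' h (t4esf_two_le_pp 𝔓) (k + 1 + 1)).t4eXiV
        (t4efLayer 𝔓 N'' h (k + 1 + 1) (by omega)).V (k + 1 + 1) 𝔓.p A B V :
        ↥(TaF ↥(tbFix 𝔓 (⊤ : Subgroup 𝔓.I)) (t4eLev N'' 𝔓.p (k + 1 + 1))))) < 1) :
    T4eCChart (t4erfPm 𝔓 N'' h (t4esf_two_le_pp 𝔓) (k + 1 + 1))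
      ((𝔓.p : ℕ) : ↥(TaF ↥(tbFix 𝔓 (⊤ : Subgroup 𝔓.I)) (t4eLev N'' 𝔓.p (k + 1 + 1)))) m z 𝔓.p
      (k + 1 + 1) (t4efLayer 𝔓 N'' h (k + 1 + 1) (by omega)).V A B hh := by
  have hQ := t4esf_two_le_pp 𝔓
  have hpQ : 𝔓.p ∣ 𝔓.p * 𝔓.p := dvd_mul_right _ _
  have hvals1 := t4erfPm_vals 𝔓 N'' h hQ (k + 1) (by omega)
  have hvals := t4erfPm_vals 𝔓 N'' h hQ (k + 1 + 1) (by omega)
  have hqB1 := t4erf_p_mem 𝔓 N'' h (by omega) hvals1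
  have hqB := t4erf_p_mem 𝔓 N'' h (by omega) hvals
  exact
    { noeth := t4ecrn_noeth_X_fix 𝔓 N'' h (t4efLayer 𝔓 N'' h (k + 1 + 1) (by omega)) hQ _
        (t4erfPm_mem_B 𝔓 N'' h hQ (k + 1 + 1) (by omega))
      hq := hqB
      hm := t4esf_m_inv_mem (t4efLayer 𝔓 N'' h (k + 1 + 1) (by omega)) _ hvals
        (t4cy_irreducible_p 𝔓) hm
      hreg := fun 𝔫 h𝔫 hq𝔫 =>
        t4erf_hreg1' 𝔓 N'' h hQ h49 hpQ hstep (k + 1 + 1) (by omega) hqB 𝔫 h𝔫 hq𝔫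
      hsm := fun 𝔫 h𝔫 _ V hV hVq =>
        t4erf_hsm1 𝔓 N'' h hQ h49 hstep hpQ (k + 1 + 1) (by omega) 𝔫 h𝔫 V hV hVq
      hroot := t4vq_hroot_chart _ _ _ _ hvals (t4esf_vert 𝔓 N'' h (by omega) hvals) hz0 hdiv
      hcase := t4esf_hcase1 (t4ef_link 𝔓 N'' h (k + 1) (by omega)) hn (by omega)
        (hstep (k + 1) (by omega)) hvals1 hvals hqB1 hqB
        (t4erf_allAt1' 𝔓 N'' h hQ h49 hpQ hstep (k + 1) (by omega))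
        (t4erf_hpiA 𝔓 N'' h hQ h49 hpQ hstep (k + 1) (by omega))
        (t4erf_hpiB 𝔓 N'' h hQ h49 hpQ hstep (k + 1) (by omega))
        (t4erf_hIDtop 𝔓 N'' h hQ h49 hpQ hstep (k + 1) (by omega))
        (t4erf_hIDsub 𝔓 N'' h hQ h49 hpQ hstep (k + 1) (by omega))
        (t4erf_hIDbot 𝔓 N'' h hQ h49 hpQ hstep (k + 1) (by omega))
        (t4erf_hIDone 𝔓 N'' h hQ h49 hpQ hstep (k + 1) (by omega))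
        hm0 a hcA hcAi hcA0 hNA hfA b hcB hcBi hcB0 hNB hfB A B hA hB
      hh := hhh }

end Fix

end

end Fermat.Agent.T4
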