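/-
T4E step C (helper5), P8 part 3: **the step-C contract `T4eiStepCFix` at the inertia level**.

* `t4esf_cchart2` : the chart-2 `T4eCChart` on helper4's `t4eixP2` (helper3's bundle `t4ecf_chart2_fix`,
  `hcase` = first alternative);
* `t4esf_hcharts` : the hypothesis `hcharts` of helper4's `t4eix_stepC_fix` (constants from
  `T4eiConstA/B`, correcting element from `t4e_exists_hh` on chart 1, transported to chart 2);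
* **`t4esf_stepC`** : `T4eiStepCFix 𝔓 N'' k (t4egLo 𝔓 N'' h k) (t4egUp 𝔓 N'' h k) m` from helper2's `Over`
  steps and the norm package of the two layers.
-/
import Fermat.Agent.Lib.T4E.StepC.Fix1
import Fermat.Agent.Lib.T4E.Local.Corr
import Fermat.Agent.Lib.T4E.Chart.Bundle2
import Fermat.Agent.Lib.T4E.New.StepCFixP

set_option autoImplicit false
set_option linter.unusedSectionVars false
set_option linter.unusedVariables false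
set_option linter.style.haveILetI false
set_option synthInstance.maxHeartbeats 400000

namespace Fermat.Agent.T4

open Fermat.Agent.S24Lib Fermat.Agent.T1 Fermat.Agent.T1.KMod Fermat.Agent.T2
open ModularCurve HahnSeries Fermat.Agent.TW Fermat.Agent.S05Lib AlgebraicCurve

local notation "Qb" => AlgebraicClosure ℚ

noncomputable section

section Fix

attribute [local instance] t2i_dvr t2i_isAlgClosed t2i_charP t2i_fact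

variable (𝔓 : FFPlace) (N'' : ℕ) [NeZero N''] (h : ¬ 𝔓.p ∣ N'') (h49 : 4 ∣ N'' ∨ 9 ∣ N'')
  (hstep : ∀ m, 1 ≤ m → T4erStep (t4erfPm 𝔓 N'' h (t4esf_two_le_pp 𝔓)) m)

include h49 hstep in
/-- **the chart-2 `T4eCChart` at level `k + 2`** -/
theorem t4esf_cchart2 (k : ℕ) (hk : 1 ≤ k) {m : ℕ} (hm : m.Coprime 𝔓.p)
    {z : ↥(TaF ↥(tbFix 𝔓 (⊤ : Subgroup 𝔓.I)) (t4eLev N'' 𝔓.p (k + 1 + 1)))} (hz0 : z ≠ 0)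
    (hdiv : ∀ v : Place ↥(tbFix 𝔓 (⊤ : Subgroup 𝔓.I))
      ↥(TaF ↥(tbFix 𝔓 (⊤ : Subgroup 𝔓.I)) (t4eLev N'' 𝔓.p (k + 1 + 1))), (m : ℤ) ∣ v.ord z)
    (A B : ℕ → (↥(t4eixP2 𝔓 N'' h (t4esf_two_le_pp 𝔓) (k + 1 + 1) (by omega)).B)ˣ)
    {hh : ↥(TaF ↥(tbFix 𝔓 (⊤ : Subgroup 𝔓.I)) (t4eLev N'' 𝔓.p (k + 1 + 1)))}
    (hhh : ∀ V ∈ (t4eixP2 𝔓 N'' h (t4esf_two_le_pp 𝔓) (k + 1 + 1) (by omega)).vert
        ((𝔓.p : ℕ) : ↥(TaF ↥(tbFix 𝔓 (⊤ : Subgroup 𝔓.I)) (t4eLev N'' 𝔓.p (k + 1 + 1)))),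
      V.valuation (hh - ((t4eixP2 𝔓 N'' h (t4esf_two_le_pp 𝔓) (k + 1 + 1) (by omega)).t4eXiV
        (t4efLayer 𝔓 N'' h (k + 1 + 1) (by omega)).V (k + 1 + 1) 𝔓.p A B V :
        ↥(TaF ↥(tbFix 𝔓 (⊤ : Subgroup 𝔓.I)) (t4eLev N'' 𝔓.p (k + 1 + 1))))) < 1) :
    T4eCChart (t4eixP2 𝔓 N'' h (t4esf_two_le_pp 𝔓) (k + 1 + 1) (by omega))
      ((𝔓.p : ℕ) : ↥(TaF ↥(tbFix 𝔓 (⊤ : Subgroup 𝔓.I)) (t4eLev N'' 𝔓.p (k + 1 + 1)))) m z 𝔓.p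
      (k + 1 + 1) (t4efLayer 𝔓 N'' h (k + 1 + 1) (by omega)).V A B hh := by
  have hQ := t4esf_two_le_pp 𝔓
  have hpQ : 𝔓.p ∣ 𝔓.p * 𝔓.p := dvd_mul_right _ _
  have hvals₁ := t4erfPm_vals 𝔓 N'' h hQ (k + 1 + 1) (by omega)
  have hvals₂ := t4eixP2_vals 𝔓 N'' h hQ (k + 1 + 1) (by omega)
  have hqB₁ := t4erf_p_mem 𝔓 N'' h (by omega) hvals₁
  obtain ⟨hnoeth, hqB, hreg, hsm, hone⟩ := t4ecf_chart2_fix 𝔓 N'' h h49 (k + 1 + 1) (by omega)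
    (t4eixP2 𝔓 N'' h hQ (k + 1 + 1) (by omega)) hvals₂
    (t4eixP2_mem_B 𝔓 N'' h hQ (k + 1 + 1) (by omega)) hvals₁ hqB₁
    (fun 𝔫₁ h𝔫₁ hq₁ _ =>
      t4erf_hreg1' 𝔓 N'' h hQ h49 hpQ hstep (k + 1 + 1) (by omega) hqB₁ 𝔫₁ h𝔫₁ hq₁)
  exact
    { noeth := hnoeth
      hq := hqB
      hm := t4esf_m_inv_mem (t4efLayer 𝔓 N'' h (k + 1 + 1) (by omega)) _ hvals₂
        (t4cy_irreducible_p 𝔓) hm
      hreg := hreg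
      hsm := hsm
      hroot := t4vq_hroot_chart _ _ _ _ hvals₂
        (t4eixP2_vert 𝔓 N'' h hQ (k + 1 + 1) (by omega)) hz0 hdiv
      hcase := fun 𝔫 h𝔫 hq𝔫 s _ => Or.inl (hone 𝔫 h𝔫 hq𝔫)
      hh := hhh }

include h49 hstep in
/-- **the hypothesis `hcharts` of `t4eix_stepC_fix`** -/
theorem t4esf_hcharts (k : ℕ) (hk : 1 ≤ k)
    (hn : T4eiNorm (t4efLayer 𝔓 N'' h (k + 1) (by omega)) (t4efLayer 𝔓 N'' h (k + 1 + 1) (by omega)))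
    {m : ℕ} (hm : m.Coprime 𝔓.p) (hm0 : m ≠ 0)
    {z : ↥(TaF ↥(tbFix 𝔓 (⊤ : Subgroup 𝔓.I)) (t4eLev N'' 𝔓.p (k + 1 + 1)))} (hz0 : z ≠ 0)
    (hdiv : ∀ v : Place ↥(tbFix 𝔓 (⊤ : Subgroup 𝔓.I))
      ↥(TaF ↥(tbFix 𝔓 (⊤ : Subgroup 𝔓.I)) (t4eLev N'' 𝔓.p (k + 1 + 1))), (m : ℤ) ∣ v.ord z)
    (hCA : T4eiConstA (t4efLayer 𝔓 N'' h (k + 1) (by omega)) m z)
    (hCB : T4eiConstB (t4efLayer 𝔓 N'' h (k + 1) (by omega)) m z) :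
    ∃ (hh : ↥(TaF ↥(tbFix 𝔓 (⊤ : Subgroup 𝔓.I)) (t4eLev N'' 𝔓.p (k + 1 + 1))))
      (A₁ B₁ : ℕ → (↥(t4erfPm 𝔓 N'' h (t4esf_two_le_pp 𝔓) (k + 1 + 1)).B)ˣ)
      (A₂ B₂ : ℕ → (↥(t4eixP2 𝔓 N'' h (t4esf_two_le_pp 𝔓) (k + 1 + 1) (by omega)).B)ˣ), hh ≠ 0 ∧
      (∃ o ∈ (t4efLayer 𝔓 N'' h (k + 1 + 1) (by omega)).Ov,
        hh ^ m - 1 =
          ((𝔓.p : ℕ) : ↥(TaF ↥(tbFix 𝔓 (⊤ : Subgroup 𝔓.I)) (t4eLev N'' 𝔓.p (k + 1 + 1)))) * o) ∧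
      T4eCChart (t4erfPm 𝔓 N'' h (t4esf_two_le_pp 𝔓) (k + 1 + 1))
        ((𝔓.p : ℕ) : ↥(TaF ↥(tbFix 𝔓 (⊤ : Subgroup 𝔓.I)) (t4eLev N'' 𝔓.p (k + 1 + 1)))) m z 𝔓.p
        (k + 1 + 1) (t4efLayer 𝔓 N'' h (k + 1 + 1) (by omega)).V A₁ B₁ hh ∧
      T4eCChart (t4eixP2 𝔓 N'' h (t4esf_two_le_pp 𝔓) (k + 1 + 1) (by omega))
        ((𝔓.p : ℕ) : ↥(TaF ↥(tbFix 𝔓 (⊤ : Subgroup 𝔓.I)) (t4eLev N'' 𝔓.p (k + 1 + 1)))) m z 𝔓.p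
        (k + 1 + 1) (t4efLayer 𝔓 N'' h (k + 1 + 1) (by omega)).V A₂ B₂ hh := by
  have hQ := t4esf_two_le_pp 𝔓
  have hqO := t4cy_irreducible_p 𝔓
  obtain ⟨cA, fA, a, hcA, hcAi, hcA0, hNA, hfA, hπa⟩ := t4esf_constsA hqO hm0 hCA
  obtain ⟨cB, fB, b, hcB, hcBi, hcB0, hNB, hfB, hπb⟩ := t4esf_constsB hqO hm0 hCB
  have hvals₁ := t4erfPm_vals 𝔓 N'' h hQ (k + 1 + 1) (by omega)
  have hvals₂ := t4eixP2_vals 𝔓 N'' h hQ (k + 1 + 1) (by omega)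
  have hqB₁ := t4erf_p_mem 𝔓 N'' h (by omega) hvals₁
  have hqB₂ := t4erf_p_mem 𝔓 N'' h (by omega) hvals₂
  have hlab₁ := t4er_lab (t4efLayer 𝔓 N'' h (k + 1 + 1) (by omega)) hvals₁ hqB₁
  have hlab₂ := t4er_lab (t4efLayer 𝔓 N'' h (k + 1 + 1) (by omega)) hvals₂ hqB₂
  have hq0 : ((𝔓.p : ℕ) : ↥(TaF ↥(tbFix 𝔓 (⊤ : Subgroup 𝔓.I)) (t4eLev N'' 𝔓.p (k + 1 + 1)))) ≠ 0 := by
    haveI : CharZero ↥(tbFix 𝔓 (⊤ : Subgroup 𝔓.I)) := algebraRat.charZero _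
    haveI : CharZero ↥(TaF ↥(tbFix 𝔓 (⊤ : Subgroup 𝔓.I)) (t4eLev N'' 𝔓.p (k + 1 + 1))) :=
      charZero_of_injective_algebraMap
        (algebraMap ↥(tbFix 𝔓 (⊤ : Subgroup 𝔓.I))
          ↥(TaF ↥(tbFix 𝔓 (⊤ : Subgroup 𝔓.I)) (t4eLev N'' 𝔓.p (k + 1 + 1)))).injective
    exact Nat.cast_ne_zero.mpr 𝔓.hp.ne_zero
  -- the constants on the two charts
  let c₁ := t4esfConst (t4efLayer 𝔓 N'' h (k + 1 + 1) (by omega))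
    (t4erfPm 𝔓 N'' h hQ (k + 1 + 1)) hvals₁
  let c₂ := t4esfConst (t4efLayer 𝔓 N'' h (k + 1 + 1) (by omega))
    (t4eixP2 𝔓 N'' h hQ (k + 1 + 1) (by omega)) hvals₂
  let A₁ : ℕ → (↥(t4erfPm 𝔓 N'' h hQ (k + 1 + 1)).B)ˣ := fun j => Units.map (c₁ : _ →* _) (a j)
  let B₁ : ℕ → (↥(t4erfPm 𝔓 N'' h hQ (k + 1 + 1)).B)ˣ := fun j => Units.map (c₁ : _ →* _) (b j)
  let A₂ : ℕ → (↥(t4eixP2 𝔓 N'' h hQ (k + 1 + 1) (by omega)).B)ˣ :=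
    fun j => Units.map (c₂ : _ →* _) (a j)
  let B₂ : ℕ → (↥(t4eixP2 𝔓 N'' h hQ (k + 1 + 1) (by omega)).B)ˣ :=
    fun j => Units.map (c₂ : _ →* _) (b j)
  -- the correcting element
  obtain ⟨hh, hh0, hhm, hhh⟩ := (t4erfPm 𝔓 N'' h hQ (k + 1 + 1)).t4e_exists_hh hq0 hlab₁.inj
    hlab₁.vert hlab₁.mem 𝔓.p A₁ B₁ hm0
    (fun j => t4esf_congr_const (t4efLayer 𝔓 N'' h (k + 1 + 1) (by omega)) _ hvals₁ hqO (hπa j))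
    (fun j => t4esf_congr_const (t4efLayer 𝔓 N'' h (k + 1 + 1) (by omega)) _ hvals₁ hqO (hπb j))
  refine ⟨hh, A₁, B₁, A₂, B₂, hh0, ?_,
    t4esf_cchart1 𝔓 N'' h h49 hstep k hk hn hm hm0 hz0 hdiv a hcA hcAi hcA0 hNA hfA
      b hcB hcBi hcB0 hNB hfB A₁ B₁ (fun j => rfl) (fun j => rfl) hhh,
    t4esf_cchart2 𝔓 N'' h h49 hstep k hk hm hz0 hdiv A₂ B₂ ?_⟩
  · obtain ⟨o, ho, e⟩ := hhm
    exact ⟨o, (t4eixP1_mem_ov 𝔓 N'' h hQ k o).mp ho, e⟩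
  · intro V hV
    obtain ⟨w, hw, rfl⟩ := hlab₂.vert V hV
    have h1 := hhh _ (hlab₁.mem w hw)
    rw [T4Pres.t4eXiV_coe _ hlab₁.inj 𝔓.p A₁ B₁ hw] at h1
    rw [T4Pres.t4eXiV_coe _ hlab₂.inj 𝔓.p A₂ B₂ hw]
    exact h1

include h49 hstep in
/-- **the step-C contract at the inertia level** (P8), from helper2's `Over` steps and the norm
package of the two layers -/
theorem t4esf_stepC (k : ℕ) (hk : 1 ≤ k)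
    (hn : T4eiNorm (t4egLo 𝔓 N'' h k) (t4egUp 𝔓 N'' h k))
    (m : ℕ) (hm : m.Coprime 𝔓.p) (hm0 : m ≠ 0) :
    T4eiStepCFix 𝔓 N'' k (t4egLo 𝔓 N'' h k) (t4egUp 𝔓 N'' h k) m :=
  t4eix_stepC_fix 𝔓 N'' h (t4esf_two_le_pp 𝔓) k hk m hm hm0
    (fun z hz0 _ _ _ hdivL _ hCA hCB =>
      t4esf_hcharts 𝔓 N'' h h49 hstep k hk hn hm hm0 hz0 hdivL hCA hCB)

end Fix

end

end Fermat.Agent.T4
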